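/-
P-ES / ES-A, row CORE-C (helper13): port of GEN-11 to `ℂ`.

* `esaCoreC : CoreCStatement N` : the generators `j(q^d)` of the function field `FC N` of
  `X₀(N)` over `ℂ` are represented by `z ↦ j(d z)`, and `FC N` is the field of fractions of
  `RsubC N`.
* `esaRsubRep : RsubRepStatement N` : every element of `RsubC N` is represented by a holomorphic
  `Γ₀(N)`-invariant function of moderate growth at all cusps.
-/
import Fermat.Agent.H23.EsA.Parts
import Fermat.Agent.H44.Gen11.Bridge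
import Fermat.Agent.H82.CuspGrowth

set_option autoImplicit false

noncomputable section

open UpperHalfPlane IntermediateField
open scoped MatrixGroups Manifold

namespace Fermat.Agent.H13

open Fermat.Agent.H23 Fermat.Agent.H23.EsA Fermat.Agent.H44

/-! ### Part (1): the generators -/

/-- The Laurent series of `jC N d hd` is `jq(q^d)` over `ℂ`. -/
theorem esaC_jC_coe (N : ℕ) [NeZero N] (d : ℕ) [NeZero d] (hd : d ∣ N) :
    ((jC N d hd : ↥(FC N)) : LaurentSeries ℂ)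
      = ModularCurve.qExpand ℂ d (ModularCurve.jqModC ℂ) := by
  show ModularCurve.coeffEmb ℂ (ModularCurve.qExpand ℚ d ModularCurve.jq) = _
  rw [ModularCurve.coeffEmb, ModularCurve.coeffMap_qExpand]
  congr 1
  rw [← ModularCurve.jqModC_rat]
  exact ModularCurve.map_jqModC _

/-- `z ↦ j(d z)` represents `jC N d hd`. -/
theorem esaC_rep_jC (N : ℕ) [NeZero N] (d : ℕ) [NeZero d] (hd : d ∣ N) :
    Rep N (fun z => jfun (scaleH d z)) (jC N d hd) := by
  show LaurentRel _ _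
  rw [esaC_jC_coe]
  exact laurentRel_jfun_scale d

/-! ### Part (2): the field of fractions -/

/-- The generators `j(q^d)`, `d ∣ N`, as Laurent series over `ℂ`. -/
def esaCGens (N : ℕ) : Set (LaurentSeries ℂ) :=
  {x | ∃ (d : ℕ) (_ : NeZero d), d ∣ N ∧
    x = ModularCurve.coeffEmb ℂ (ModularCurve.qExpand ℚ d ModularCurve.jq)}

theorem esaC_coeffEmb_algebraMap (c : ℚ) :
    ModularCurve.coeffEmb ℂ (algebraMap ℚ (LaurentSeries ℚ) c)
      = algebraMap ℂ (LaurentSeries ℂ) (algebraMap ℚ ℂ c) := by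
  rw [ModularCurve.algebraMap_laurentSeries_eq_single,
    ModularCurve.algebraMap_laurentSeries_eq_single, ModularCurve.coeffEmb,
    ModularCurve.coeffMap_single]

theorem esaC_coeffEmb_mem (N : ℕ) [NeZero N] {x : LaurentSeries ℚ}
    (hx : x ∈ ModularCurve.modularFunctionFieldFull N) :
    ModularCurve.coeffEmb ℂ x ∈ IntermediateField.adjoin ℂ (esaCGens N) := by
  rw [ModularCurve.modularFunctionFieldFull] at hx
  induction hx using IntermediateField.adjoin_induction with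
  | mem x hx =>
    obtain ⟨d, hd, hdN, rfl⟩ := hx
    exact IntermediateField.subset_adjoin _ _ ⟨d, hd, hdN, rfl⟩
  | algebraMap c =>
    rw [esaC_coeffEmb_algebraMap]
    exact IntermediateField.algebraMap_mem _ _
  | add x y _ _ hx hy => rw [map_add]; exact add_mem hx hy
  | inv x _ hx => rw [map_inv₀]; exact inv_mem hx
  | mul x y _ _ hx hy => rw [map_mul]; exact mul_mem hx hy

theorem esaC_functionField_le (N : ℕ) [NeZero N] :
    FC N ≤ IntermediateField.adjoin ℂ (esaCGens N) := by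
  show ModularCurve.laurentBaseChange ℂ (ModularCurve.modularFunctionFieldFull N) ≤ _
  rw [ModularCurve.laurentBaseChange, IntermediateField.adjoin_le_iff]
  rintro _ ⟨x, hx, rfl⟩
  exact esaC_coeffEmb_mem N hx

theorem esaC_algebraAdjoin_le (N : ℕ) [NeZero N] :
    Algebra.adjoin ℂ (esaCGens N) ≤ (RsubC N).map (FC N).val := by
  rw [Algebra.adjoin_le_iff]
  rintro _ ⟨d, hd, hdN, rfl⟩
  have := hd
  refine ⟨jC N d hdN, ?_, rfl⟩
  exact Algebra.subset_adjoin ⟨d, hd, hdN, rfl⟩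

/-- Every element of `FC N` is a quotient of two elements of `RsubC N`. -/
theorem esaC_exists_frac (N : ℕ) [NeZero N] (f : ↥(FC N)) :
    ∃ r s : ↥(FC N), r ∈ RsubC N ∧ s ∈ RsubC N ∧ s ≠ 0 ∧ f * s = r := by
  have hf := esaC_functionField_le N f.2
  rw [IntermediateField.mem_adjoin_iff_div] at hf
  obtain ⟨r, hr, s, hs, hfrs⟩ := hf
  obtain ⟨r', hr', hrr⟩ := esaC_algebraAdjoin_le N hr
  obtain ⟨s', hs', hss⟩ := esaC_algebraAdjoin_le N hs
  by_cases h0 : s' = 0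
  · refine ⟨0, 1, zero_mem _, one_mem _, one_ne_zero, ?_⟩
    have hs0 : s = 0 := by rw [← hss, h0]; simp
    have hf0 : f = 0 := by
      apply Subtype.ext
      rw [hfrs, hs0, div_zero]
      rfl
    rw [hf0]
    simp
  · refine ⟨r', s', hr', hs', h0, ?_⟩
    apply Subtype.ext
    show (f : LaurentSeries ℂ) * (s' : LaurentSeries ℂ) = (r' : LaurentSeries ℂ)
    have hs0 : s ≠ 0 := by
      rw [← hss]
      intro h
      exact h0 (Subtype.ext h)
    have e1 : (s' : LaurentSeries ℂ) = s := hss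
    have e2 : (r' : LaurentSeries ℂ) = r := hrr
    rw [e1, e2, hfrs, div_mul_cancel₀ _ hs0]

/-- **[CORE-C]** -/
theorem esaCoreC (N : ℕ) [NeZero N] : CoreCStatement N :=
  ⟨fun d hd0 hd => by
      have := hd0
      exact esaC_rep_jC N d hd,
    esaC_exists_frac N⟩

/-! ### [REP]: representing functions for the elements of `RsubC N` -/

/-- The predicate carried through the induction over `RsubC N`. -/
def EsaGoodRep (N : ℕ) (r : ↥(FC N)) : Prop :=
  ∃ h : ℍ → ℂ, Rep N h r ∧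
    (∀ γ ∈ CongruenceSubgroup.Gamma0 N, ∀ z : ℍ, h (γ • z) = h z) ∧
    (∀ γ : SL(2, ℤ), ∃ (M : ℕ) (C Y : ℝ), 0 ≤ C ∧ ∀ z : ℍ, Y ≤ z.im →
      ‖h (γ • z)‖ ≤ C * Real.exp (2 * Real.pi * M * z.im))

theorem esaGoodRep_jC (N : ℕ) [NeZero N] (d : ℕ) [NeZero d] (hd : d ∣ N) :
    EsaGoodRep N (jC N d hd) := by
  refine ⟨fun z => jfun (scaleH d z), esaC_rep_jC N d hd, ?_, ?_⟩
  · intro γ hγ z
    exact Fermat.Agent.H82.sep_jfun_scaleH_smul N d hd γ hγ z
  · intro γ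
    obtain ⟨Y, hY⟩ := Fermat.Agent.H82.cg_jfun_scaleH_smul_bound d γ
    exact ⟨d, 7, Y, by norm_num, fun z hz => hY z hz⟩

theorem esaGoodRep_algebraMap (N : ℕ) [NeZero N] (c : ℂ) :
    EsaGoodRep N (algebraMap ℂ ↥(FC N) c) := by
  refine ⟨fun _ => c, ?_, fun _ _ _ => rfl, fun γ => ⟨0, ‖c‖, 0, norm_nonneg _, fun z _ => ?_⟩⟩
  · show LaurentRel _ _
    have h : ((algebraMap ℂ ↥(FC N) c : ↥(FC N)) : LaurentSeries ℂ)
        = algebraMap ℂ (LaurentSeries ℂ) c := rfl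
    rw [h, ModularCurve.algebraMap_laurentSeries_eq_single]
    exact laurentRel_const c
  · simp

theorem esaGoodRep_add (N : ℕ) [NeZero N] {a b : ↥(FC N)} (ha : EsaGoodRep N a)
    (hb : EsaGoodRep N b) : EsaGoodRep N (a + b) := by
  obtain ⟨h₁, r₁, i₁, g₁⟩ := ha
  obtain ⟨h₂, r₂, i₂, g₂⟩ := hb
  refine ⟨h₁ + h₂, ?_, ?_, ?_⟩
  · show LaurentRel _ _
    have e : ((a + b : ↥(FC N)) : LaurentSeries ℂ)
        = (a : LaurentSeries ℂ) + (b : LaurentSeries ℂ) := rfl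
    rw [e]
    exact LaurentRel.add r₁ r₂
  · intro γ hγ z
    rw [Pi.add_apply, Pi.add_apply, i₁ γ hγ z, i₂ γ hγ z]
  · intro γ
    obtain ⟨M₁, C₁, Y₁, hC₁, k₁⟩ := g₁ γ
    obtain ⟨M₂, C₂, Y₂, hC₂, k₂⟩ := g₂ γ
    refine ⟨max M₁ M₂, C₁ + C₂, max Y₁ Y₂, add_nonneg hC₁ hC₂, fun z hz => ?_⟩
    have hz1 : Y₁ ≤ z.im := le_trans (le_max_left _ _) hz
    have hz2 : Y₂ ≤ z.im := le_trans (le_max_right _ _) hz
    have hpi : 0 < Real.pi := Real.pi_pos
    have him : 0 < z.im := z.im_pos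
    have hM1 : ((M₁ : ℕ) : ℝ) ≤ ((max M₁ M₂ : ℕ) : ℝ) := by exact_mod_cast le_max_left _ _
    have hM2 : ((M₂ : ℕ) : ℝ) ≤ ((max M₁ M₂ : ℕ) : ℝ) := by exact_mod_cast le_max_right _ _
    have e1 : Real.exp (2 * Real.pi * M₁ * z.im)
        ≤ Real.exp (2 * Real.pi * (max M₁ M₂ : ℕ) * z.im) := by
      apply Real.exp_le_exp.mpr
      have : 0 ≤ 2 * Real.pi * z.im := by positivity
      nlinarith
    have e2 : Real.exp (2 * Real.pi * M₂ * z.im)
        ≤ Real.exp (2 * Real.pi * (max M₁ M₂ : ℕ) * z.im) := by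
      apply Real.exp_le_exp.mpr
      have : 0 ≤ 2 * Real.pi * z.im := by positivity
      nlinarith
    rw [Pi.add_apply]
    calc ‖h₁ (γ • z) + h₂ (γ • z)‖ ≤ ‖h₁ (γ • z)‖ + ‖h₂ (γ • z)‖ := norm_add_le _ _
      _ ≤ C₁ * Real.exp (2 * Real.pi * M₁ * z.im) + C₂ * Real.exp (2 * Real.pi * M₂ * z.im) :=
          add_le_add (k₁ z hz1) (k₂ z hz2)
      _ ≤ C₁ * Real.exp (2 * Real.pi * (max M₁ M₂ : ℕ) * z.im) +
            C₂ * Real.exp (2 * Real.pi * (max M₁ M₂ : ℕ) * z.im) :=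
          add_le_add (mul_le_mul_of_nonneg_left e1 hC₁) (mul_le_mul_of_nonneg_left e2 hC₂)
      _ = (C₁ + C₂) * Real.exp (2 * Real.pi * (max M₁ M₂ : ℕ) * z.im) := by ring

theorem esaGoodRep_mul (N : ℕ) [NeZero N] {a b : ↥(FC N)} (ha : EsaGoodRep N a)
    (hb : EsaGoodRep N b) : EsaGoodRep N (a * b) := by
  obtain ⟨h₁, r₁, i₁, g₁⟩ := ha
  obtain ⟨h₂, r₂, i₂, g₂⟩ := hb
  refine ⟨h₁ * h₂, ?_, ?_, ?_⟩
  · show LaurentRel _ _
    have e : ((a * b : ↥(FC N)) : LaurentSeries ℂ)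
        = (a : LaurentSeries ℂ) * (b : LaurentSeries ℂ) := rfl
    rw [e]
    exact LaurentRel.mul r₁ r₂
  · intro γ hγ z
    rw [Pi.mul_apply, Pi.mul_apply, i₁ γ hγ z, i₂ γ hγ z]
  · intro γ
    obtain ⟨M₁, C₁, Y₁, hC₁, k₁⟩ := g₁ γ
    obtain ⟨M₂, C₂, Y₂, hC₂, k₂⟩ := g₂ γ
    refine ⟨M₁ + M₂, C₁ * C₂, max Y₁ Y₂, mul_nonneg hC₁ hC₂, fun z hz => ?_⟩
    have hz1 : Y₁ ≤ z.im := le_trans (le_max_left _ _) hz
    have hz2 : Y₂ ≤ z.im := le_trans (le_max_right _ _) hz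
    rw [Pi.mul_apply, norm_mul]
    calc ‖h₁ (γ • z)‖ * ‖h₂ (γ • z)‖
        ≤ (C₁ * Real.exp (2 * Real.pi * M₁ * z.im))
            * (C₂ * Real.exp (2 * Real.pi * M₂ * z.im)) :=
          mul_le_mul (k₁ z hz1) (k₂ z hz2) (norm_nonneg _)
            (mul_nonneg hC₁ (Real.exp_pos _).le)
      _ = C₁ * C₂ * (Real.exp (2 * Real.pi * M₁ * z.im)
            * Real.exp (2 * Real.pi * M₂ * z.im)) := by ring
      _ = C₁ * C₂ * Real.exp (2 * Real.pi * ((M₁ + M₂ : ℕ) : ℝ) * z.im) := by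
          rw [← Real.exp_add]
          congr 2
          push_cast
          ring

theorem esaGoodRep_of_mem (N : ℕ) [NeZero N] {r : ↥(FC N)} (hr : r ∈ RsubC N) :
    EsaGoodRep N r := by
  rw [RsubC] at hr
  induction hr using Algebra.adjoin_induction with
  | mem x hx =>
    obtain ⟨d, hd0, hd, rfl⟩ := hx
    have := hd0
    exact esaGoodRep_jC N d hd
  | algebraMap c => exact esaGoodRep_algebraMap N c
  | add x y _ _ hx hy => exact esaGoodRep_add N hx hy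
  | mul x y _ _ hx hy => exact esaGoodRep_mul N hx hy

/-- **[REP]** -/
theorem esaRsubRep (N : ℕ) [NeZero N] : RsubRepStatement N := by
  intro r hr
  obtain ⟨h, hrep, hinv, hgrow⟩ := esaGoodRep_of_mem N hr
  refine ⟨h, hrep, LaurentRel.mdifferentiable hrep, hinv, fun γ => ?_⟩
  obtain ⟨M, C, Y, -, hb⟩ := hgrow γ
  exact ⟨M, C, Y, hb⟩

end Fermat.Agent.H13

end
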