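import Fermat.Agent.H13.S14Interfaces

set_option autoImplicit false

open scoped NumberField nonZeroDivisors

namespace Fermat.Agent.H13

section

variable (p : ℕ) [Fact p.Prime] (K : Type) [Field K] [NumberField K]

/-- **Lemma A**: integral form of `(α) = I^p`. -/
theorem exists_integral_ideal_of_singular (h1 : SingularIdealStatement) (α : K) (hα : α ≠ 0)
    (hs : IsSingular p α) :
    ∃ (J : (Ideal (𝓞 K))⁰) (a₀ d : 𝓞 K), a₀ ≠ 0 ∧ d ≠ 0 ∧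
      (J : Ideal (𝓞 K)) ^ p = Ideal.span {a₀} ∧ (a₀ : K) = α * (d : K) ^ p := by
  obtain ⟨I, hI⟩ := h1 p K α hα hs
  obtain ⟨d, J, hd, hIJ⟩ := FractionalIdeal.exists_eq_spanSingleton_mul
    (I : FractionalIdeal (𝓞 K)⁰ K)
  have hdK : (algebraMap (𝓞 K) K d) ≠ 0 := by
    rwa [Ne, FaithfulSMul.algebraMap_eq_zero_iff]
  have hJ0 : J ≠ 0 := by
    rintro rfl
    have : (I : FractionalIdeal (𝓞 K)⁰ K) = 0 := by
      rw [hIJ]; simp
    exact I.ne_zero this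
  have key : ((J ^ p : Ideal (𝓞 K)) : FractionalIdeal (𝓞 K)⁰ K) =
      FractionalIdeal.spanSingleton (𝓞 K)⁰ (α * (algebraMap (𝓞 K) K d) ^ p) := by
    have h2 : FractionalIdeal.spanSingleton (𝓞 K)⁰ α =
        FractionalIdeal.spanSingleton (𝓞 K)⁰ ((algebraMap (𝓞 K) K d) ^ p)⁻¹ *
          ((J ^ p : Ideal (𝓞 K)) : FractionalIdeal (𝓞 K)⁰ K) := by
      rw [hI, Units.val_pow_eq_pow_val, hIJ, mul_pow, FractionalIdeal.spanSingleton_pow,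
        FractionalIdeal.coeIdeal_pow, inv_pow]
    rw [← FractionalIdeal.spanSingleton_mul_spanSingleton, h2, mul_comm, ← mul_assoc,
      FractionalIdeal.spanSingleton_mul_spanSingleton, mul_inv_cancel₀ (pow_ne_zero _ hdK),
      FractionalIdeal.spanSingleton_one, one_mul]
  have hmem : α * (algebraMap (𝓞 K) K d) ^ p ∈
      ((J ^ p : Ideal (𝓞 K)) : FractionalIdeal (𝓞 K)⁰ K) := by
    rw [key]; exact FractionalIdeal.mem_spanSingleton_self _ _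
  obtain ⟨a₀, -, ha₀⟩ := (FractionalIdeal.mem_coeIdeal _).mp hmem
  have hJp : J ^ p = Ideal.span {a₀} := by
    apply FractionalIdeal.coeIdeal_injective (K := K)
    show ((J ^ p : Ideal (𝓞 K)) : FractionalIdeal (𝓞 K)⁰ K) =
      ((Ideal.span {a₀} : Ideal (𝓞 K)) : FractionalIdeal (𝓞 K)⁰ K)
    rw [key, FractionalIdeal.coeIdeal_span_singleton, ha₀]
  have ha₀0 : a₀ ≠ 0 := by
    rintro rfl
    rw [map_zero] at ha₀
    exact (mul_ne_zero hα (pow_ne_zero _ hdK)) ha₀.symm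
  exact ⟨⟨J, mem_nonZeroDivisors_iff_ne_zero.mpr hJ0⟩, a₀, d, ha₀0, hd, hJp, ha₀⟩

/-- **Lemma B**: the class of `J` lies in the `ω²`-eigenspace. -/
theorem sigmaCl_mk0_eq_pow (ζ : K) (α : K) (hα : α ≠ 0) (he : IsOmegaSqElt p ζ α)
    (J : (Ideal (𝓞 K))⁰) (a₀ d : 𝓞 K) (hd : d ≠ 0)
    (hJ : (J : Ideal (𝓞 K)) ^ p = Ideal.span {a₀}) (hα' : (a₀ : K) = α * (d : K) ^ p)
    (σ : K ≃ₐ[ℚ] K) (k : ℕ) (hσ : σ ζ = ζ ^ k) :
    sigmaCl K σ (ClassGroup.mk0 J) = ClassGroup.mk0 J ^ (k ^ 2) := by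
  have hp : p.Prime := Fact.out
  obtain ⟨κ, hκ⟩ := he σ k hσ
  have hdK : (d : K) ≠ 0 := by
    rwa [Ne, NumberField.RingOfIntegers.coe_eq_zero_iff]
  have hσα : σ α ≠ 0 := by rwa [Ne, map_eq_zero]
  have hκ0 : κ ≠ 0 := by
    rintro rfl
    rw [zero_pow hp.ne_zero, mul_zero] at hκ
    exact hσα hκ
  have hσd : σ (d : K) ≠ 0 := by rwa [Ne, map_eq_zero]
  obtain ⟨θ₁, θ₂, hθ₂, hθ⟩ := IsFractionRing.div_surjective (A := 𝓞 K)
    (κ * σ (d : K) / (d : K) ^ (k ^ 2))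
  have hθ₂0 : θ₂ ≠ 0 := nonZeroDivisors.ne_zero hθ₂
  have hθ₂K : (algebraMap (𝓞 K) K θ₂) ≠ 0 := by
    rwa [Ne, FaithfulSMul.algebraMap_eq_zero_iff]
  have hθ₁0 : θ₁ ≠ 0 := by
    rintro rfl
    rw [map_zero, zero_div] at hθ
    exact (div_ne_zero (mul_ne_zero hκ0 hσd) (pow_ne_zero _ hdK)) hθ.symm
  -- the key identity in `𝓞 K`
  have hid : θ₂ ^ p * sigmaO K σ a₀ = θ₁ ^ p * a₀ ^ (k ^ 2) := by
    apply NumberField.RingOfIntegers.coe_injective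
    have h1 : (algebraMap (𝓞 K) K θ₁) = (κ * σ (d : K) / (d : K) ^ (k ^ 2)) *
        (algebraMap (𝓞 K) K θ₂) := by
      rw [← hθ]; field_simp
    simp only [map_mul, map_pow, coe_sigmaO, hα', hκ]
    rw [h1]
    have e1 : ((d : K) ^ p) ^ (k ^ 2) = ((d : K) ^ (k ^ 2)) ^ p := by
      rw [← pow_mul, ← pow_mul, mul_comm]
    have e2 : ((d : K) ^ (k ^ 2)) ^ p ≠ 0 := pow_ne_zero _ (pow_ne_zero _ hdK)
    rw [mul_pow α, e1, div_mul_eq_mul_div, div_pow, div_mul_eq_mul_div, eq_div_iff e2]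
    ring
  -- equality of ideals
  have hideal : Ideal.span {θ₂} * (Ideal.mapNonZero (sigmaO K σ) J : Ideal (𝓞 K)) =
      Ideal.span {θ₁} * (J : Ideal (𝓞 K)) ^ (k ^ 2) := by
    apply pow_left_injective hp.ne_zero
    show (Ideal.span {θ₂} * (Ideal.mapNonZero (sigmaO K σ) J : Ideal (𝓞 K))) ^ p =
      (Ideal.span {θ₁} * (J : Ideal (𝓞 K)) ^ (k ^ 2)) ^ p
    rw [mul_pow, mul_pow, Ideal.coe_mapNonZero, ← Ideal.map_pow, hJ, ← pow_mul, mul_comm (k ^ 2) p,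
      pow_mul, hJ, Ideal.map_span, Set.image_singleton, Ideal.span_singleton_pow,
      Ideal.span_singleton_pow, Ideal.span_singleton_pow, Ideal.span_singleton_mul_span_singleton,
      Ideal.span_singleton_mul_span_singleton]
    congr 2
  rw [sigmaCl_mk0, ← map_pow]
  rw [ClassGroup.mk0_eq_mk0_iff]
  exact ⟨θ₂, θ₁, hθ₂0, hθ₁0, by simpa using hideal⟩

omit [Fact p.Prime] in
/-- **Lemma C**: if the class of `J` is trivial then `α` is a unit times a `p`-th power. -/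
theorem exists_unit_mul_pow_of_mk0_eq_one (α : K)
    (J : (Ideal (𝓞 K))⁰) (a₀ d : 𝓞 K) (hd : d ≠ 0)
    (hJ : (J : Ideal (𝓞 K)) ^ p = Ideal.span {a₀}) (hα' : (a₀ : K) = α * (d : K) ^ p)
    (h1 : ClassGroup.mk0 J = 1) :
    ∃ (u : (𝓞 K)ˣ) (ν : K), α = ((u : 𝓞 K) : K) * ν ^ p := by
  have hdK : (d : K) ≠ 0 := by
    rwa [Ne, NumberField.RingOfIntegers.coe_eq_zero_iff]
  have hprinc : (J : Ideal (𝓞 K)).IsPrincipal := by
    have := (ClassGroup.mk0_eq_one_iff J.2).mp (by simpa using h1)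
    exact this
  obtain ⟨μ, hμ⟩ := hprinc.principal
  have hμ' : (J : Ideal (𝓞 K)) = Ideal.span {μ} := hμ
  rw [hμ', Ideal.span_singleton_pow, Ideal.span_singleton_eq_span_singleton] at hJ
  obtain ⟨u, hu⟩ := hJ
  refine ⟨u, (μ : K) / (d : K), ?_⟩
  have h2 : ((μ : K)) ^ p * ((u : 𝓞 K) : K) = α * (d : K) ^ p := by
    rw [← hα', ← hu]; push_cast; ring
  rw [div_pow, ← mul_div_assoc, eq_div_iff (pow_ne_zero _ hdK), ← h2]
  ring

/-- **Lemma D**: the unit part of an `ω²`-eigen-element is an `ω²`-eigen-unit. -/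
theorem unit_eigen_of_eigen (ζ : K) (α : K) (hα : α ≠ 0) (he : IsOmegaSqElt p ζ α)
    (u : (𝓞 K)ˣ) (ν : K) (hαu : α = ((u : 𝓞 K) : K) * ν ^ p)
    (σ : K ≃ₐ[ℚ] K) (k : ℕ) (hσ : σ ζ = ζ ^ k) :
    ∃ v : (𝓞 K)ˣ, sigmaO K σ (u : 𝓞 K) = (u : 𝓞 K) ^ (k ^ 2) * (v : 𝓞 K) ^ p := by
  have hp : p.Prime := Fact.out
  obtain ⟨κ, hκ⟩ := he σ k hσ
  have hν : ν ≠ 0 := by
    rintro rfl
    rw [zero_pow hp.ne_zero, mul_zero] at hαu
    exact hα hαu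
  have hσν : σ ν ≠ 0 := by rwa [Ne, map_eq_zero]
  have huK : (((u : 𝓞 K) : K)) ≠ 0 := by
    rw [Ne, NumberField.RingOfIntegers.coe_eq_zero_iff]; exact u.ne_zero
  set w : K := ν ^ (k ^ 2) * κ / σ ν with hw
  -- `σ u = u^(k²) w^p` in `K`
  have hK : σ ((u : 𝓞 K) : K) = ((u : 𝓞 K) : K) ^ (k ^ 2) * w ^ p := by
    have h3 : σ ((u : 𝓞 K) : K) * σ ν ^ p = (((u : 𝓞 K) : K) * ν ^ p) ^ (k ^ 2) * κ ^ p := by
      rw [← hαu, ← hκ, hαu, map_mul, map_pow]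
    have e1 : (ν ^ p) ^ (k ^ 2) = (ν ^ (k ^ 2)) ^ p := by
      rw [← pow_mul, ← pow_mul, mul_comm]
    rw [hw, div_pow, mul_pow, ← mul_div_assoc, eq_div_iff (pow_ne_zero _ hσν), h3, mul_pow, e1]
    ring
  -- `w^p` is a unit of `𝓞 K`
  let u' : (𝓞 K)ˣ := Units.map ((sigmaO K σ : 𝓞 K ≃+* 𝓞 K) : 𝓞 K →* 𝓞 K) u * (u ^ (k ^ 2))⁻¹
  have hu' : (((u' : (𝓞 K)ˣ) : 𝓞 K) : K) = w ^ p := by
    have h4 : ((u' : (𝓞 K)ˣ) : 𝓞 K) * (u : 𝓞 K) ^ (k ^ 2) = sigmaO K σ (u : 𝓞 K) := by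
      simp only [u', Units.val_mul, Units.coe_map]
      rw [mul_assoc, ← Units.val_pow_eq_pow_val, Units.inv_mul, mul_one]
      rfl
    have h5 := congrArg (fun x : 𝓞 K => (x : K)) h4
    simp only [map_mul, map_pow, coe_sigmaO] at h5
    rw [hK] at h5
    have h6 : (((u : 𝓞 K) : K)) ^ (k ^ 2) ≠ 0 := pow_ne_zero _ huK
    rw [mul_comm] at h5
    exact mul_left_cancel₀ h6 h5
  have hwint : IsIntegral ℤ w := by
    apply IsIntegral.of_pow hp.pos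
    rw [← hu']
    exact NumberField.RingOfIntegers.isIntegral_coe _
  let w₀ : 𝓞 K := ⟨w, hwint⟩
  have hw₀ : w₀ ^ p = (u' : 𝓞 K) := by
    apply NumberField.RingOfIntegers.coe_injective
    show (algebraMap (𝓞 K) K) (w₀ ^ p) = (((u' : (𝓞 K)ˣ) : 𝓞 K) : K)
    rw [hu', map_pow]; rfl
  have hw₀u : IsUnit w₀ := by
    rw [← isUnit_pow_iff hp.ne_zero, hw₀]
    exact u'.isUnit
  refine ⟨hw₀u.unit, ?_⟩
  apply NumberField.RingOfIntegers.coe_injective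
  simp only [map_mul, map_pow, coe_sigmaO, IsUnit.unit_spec]
  rw [hK]; rfl

end

/-- `η` is not a `p`-th power (a consequence of **C7**). -/
def EtaNotPowStatement : Prop :=
  ∀ (p : ℕ) [Fact p.Prime] (_ : 5 ≤ p) (K : Type) [Field K] [NumberField K]
    [IsCyclotomicExtension {p} ℚ K] (ζ : K) (hζ : IsPrimitiveRoot ζ p),
    ¬ ∃ x : 𝓞 K, x ^ p = etaInt p hζ

/-- **CORE from its parts.** -/
theorem core_of_parts (h1 : SingularIdealStatement) (h2 : ClassCharStatement)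
    (h3 : ThaineStatement) (h4 : ClaimZStatement) (h6 : UnitEigenStatement)
    (h7 : EtaUnitStatement) (h8 : EtaNotPowStatement) : CoreStatement := by
  intro p _ h5 K _ _ _ ζ hζ α hα hs he
  obtain ⟨J, a₀, d, -, hd, hJ, hα'⟩ := exists_integral_ideal_of_singular p K h1 α hα hs
  have htriv : ClassGroup.mk0 J = 1 := by
    by_contra hne
    have hpow : ClassGroup.mk0 J ^ p = 1 := by
      rw [← map_pow]
      have : (J ^ p : (Ideal (𝓞 K))⁰) = ⟨Ideal.span {a₀}, by rw [← hJ]; exact (J ^ p).2⟩ :=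
        Subtype.ext (by simpa using hJ)
      rw [this, ClassGroup.mk0_eq_one_iff]
      exact ⟨⟨a₀, rfl⟩⟩
    obtain ⟨φ, hφ1, hφ⟩ := h2 p K ζ hζ (ClassGroup.mk0 J) hne hpow
      (fun σ k hσ => sigmaCl_mk0_eq_pow p K ζ α hα he J a₀ d hd hJ hα' σ k hσ)
    obtain ⟨P, hP, hφP, hnot⟩ := h4 p h5 K (etaInt p hζ) (h7 p h5 K ζ hζ) (h8 p h5 K ζ hζ) φ hφ1
    exact hnot (h3 p h5 K ζ hζ φ hφ P hP hφP)
  obtain ⟨u, ν, hαu⟩ := exists_unit_mul_pow_of_mk0_eq_one p K α J a₀ d hd hJ hα' htriv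
  obtain ⟨j, v, hv⟩ := h6 p h5 K ζ hζ u
    (fun σ k hσ => unit_eigen_of_eigen p K ζ α hα he u ν hαu σ k hσ)
  refine ⟨j, ((v : 𝓞 K) : K) * ν, ?_⟩
  rw [hαu, hv]
  push_cast
  ring

end Fermat.Agent.H13
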