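import Fermat.Agent.H13.S14Interfaces

set_option autoImplicit false

open scoped NumberField nonZeroDivisors

namespace Fermat.Agent.H13

/-- Every field of characteristic zero has a valuation subring lying over a given prime. -/
theorem exists_liesOverPrime' (L : Type*) [Field L] [CharZero L] {ℓ : ℕ} (hℓ : ℓ.Prime) :
    ∃ A : ValuationSubring L, A.LiesOverPrime ℓ := by
  let R : Subring L := (Int.castRingHom L).range
  let x : R := ⟨(ℓ : L), ⟨(ℓ : ℤ), by simp⟩⟩
  have hx : Ideal.span {x} ≠ ⊤ := by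
    rw [Ne, Ideal.span_singleton_eq_top]
    intro hu
    obtain ⟨y, hy⟩ := isUnit_iff_exists_inv.mp hu
    obtain ⟨y, n, rfl⟩ := y
    have h1 : ((ℓ : ℤ) * n : ℤ) = 1 := by
      have := congrArg Subtype.val hy
      apply Int.cast_injective (α := L)
      simpa [x] using this
    have : IsUnit (ℓ : ℤ) := IsUnit.of_mul_eq_one _ h1
    rw [Int.ofNat_isUnit, Nat.isUnit_iff] at this
    exact hℓ.one_lt.ne' this
  obtain ⟨A, -, hA⟩ := Ideal.image_subset_nonunits_valuationSubring _ hx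
  refine ⟨A, ?_⟩
  exact hA ⟨x, Ideal.subset_span rfl, rfl⟩

/-- An algebra automorphism of `ℚ̄` fixing `ι ζ` fixes `ι x` for every `x ∈ K = ℚ(ζ)`. -/
theorem fixes_range_of_fixes_zeta (p : ℕ) [NeZero p] (K : Type) [Field K] [NumberField K]
    [IsCyclotomicExtension {p} ℚ K] (ι : K →ₐ[ℚ] AlgebraicClosure ℚ) (ζ : K)
    (hζ : IsPrimitiveRoot ζ p) (τ : AlgebraicClosure ℚ ≃ₐ[ℚ] AlgebraicClosure ℚ)
    (hτ : τ (ι ζ) = ι ζ) (x : K) : τ (ι x) = ι x := by
  have h : (τ : AlgebraicClosure ℚ →ₐ[ℚ] AlgebraicClosure ℚ).comp ι = ι := by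
    have hadj : Algebra.adjoin ℚ {ζ} = ⊤ :=
      IsCyclotomicExtension.adjoin_primitive_root_eq_top hζ
    refine AlgHom.ext_of_adjoin_eq_top hadj ?_
    intro a ha
    rw [Set.mem_singleton_iff] at ha
    subst ha
    simpa using hτ
  exact congrArg (fun f : K →ₐ[ℚ] AlgebraicClosure ℚ => f x) h

/-- Final assembly, for a given model `K` of `ℚ(ζ_p)` embedded in `ℚ̄`. -/
theorem splitsGlobally_of_parts_aux (hK : KummerDatumStatement) (hL : LocalLemmaStatement)
    (hC : CoreStatement) (hC3 : Core3Statement) (hE : EtaLocalStatement)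
    (hU : EtaUnitStatement) {p : ℕ} [Fact p.Prime] (h3 : 3 ≤ p)
    (K : Type) [Field K] [NumberField K] [IsCyclotomicExtension {p} ℚ K]
    (ι : K →ₐ[ℚ] AlgebraicClosure ℚ) (ζ : K) (hζ : IsPrimitiveRoot ζ p)
    (V : Type) [AddCommGroup V] [Module (ZMod p) V]
    [DistribMulAction (AlgebraicClosure ℚ ≃ₐ[ℚ] AlgebraicClosure ℚ) V]
    [SMulCommClass (AlgebraicClosure ℚ ≃ₐ[ℚ] AlgebraicClosure ℚ) (ZMod p) V]
    (C : Submodule (ZMod p) V) (hadm : ExtCitation.IsAdmissibleExtensionCts p V C) :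
    ExtCitation.SplitsGlobally C := by
  by_contra hns
  have hp : p.Prime := Fact.out
  haveI : NeZero p := ⟨hp.ne_zero⟩
  obtain ⟨α, A₀, hα0, hA₀, hnp, hsing, heig, hloc⟩ := hK p h3 V C hadm hns K ι ζ hζ
  rcases Nat.lt_or_ge p 5 with h5 | h5
  · -- `p = 3`
    have hp3 : p = 3 := by
      interval_cases p
      · rfl
      · exact absurd hp (by decide)
    subst hp3
    obtain ⟨β, hβ⟩ := hC3 K ζ hζ α hα0 hsing heig
    exact hnp ⟨β, hβ.symm⟩
  · -- `p ≥ 5`
    obtain ⟨j, β, hβ⟩ := hC p h5 K ζ hζ α hα0 hsing heig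
    by_cases hj : p ∣ j
    · obtain ⟨m, rfl⟩ := hj
      refine hnp ⟨((etaInt p hζ : 𝓞 K) : K) ^ m * β, ?_⟩
      rw [hβ, mul_pow, ← pow_mul, mul_comm m p]
    · have hβ0 : β ≠ 0 := by
        rintro rfl
        apply hα0
        rw [hβ, zero_pow hp.ne_zero, mul_zero]
      have hιβ : ι β ≠ 0 := by
        rw [Ne, map_eq_zero]; exact hβ0
      obtain ⟨A, hA⟩ := exists_liesOverPrime' (AlgebraicClosure ℚ) hp
      have hu : IsUnit (etaInt p hζ ^ j) := (hU p h5 K ζ hζ).pow j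
      have hy : (A₀ / ι β) ^ p = ι ((etaInt p hζ ^ j : 𝓞 K) : K) := by
        rw [div_pow, hA₀, ← map_pow, ← map_div₀]
        congr 1
        rw [hβ]
        push_cast
        field_simp
      have hnot : ¬ ∃ x : K, x ^ p = ((etaInt p hζ ^ j : 𝓞 K) : K) := by
        rintro ⟨x, hx⟩
        refine hnp ⟨x * β, ?_⟩
        rw [mul_pow, hx, hβ]
        push_cast
        ring
      have hfix : ∀ τ ∈ A.decompositionSubgroup ℚ, τ (ι ζ) = ι ζ → τ (A₀ / ι β) = A₀ / ι β := by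
        intro τ hτ hτζ
        rw [map_div₀, hloc A hA τ hτ hτζ, fixes_range_of_fixes_zeta p K ι ζ hζ τ hτζ β]
      obtain ⟨c, hc⟩ := hL p h3 K ι ζ hζ (etaInt p hζ ^ j) hu (A₀ / ι β) hy hnot A hA hfix
      exact hE p h5 K ζ hζ j hj c hc

/-- **Final assembly of S14** from the interface statements. -/
theorem extVanishingCts_of_parts (hK : KummerDatumStatement) (hL : LocalLemmaStatement)
    (hC : CoreStatement) (hC3 : Core3Statement) (hE : EtaLocalStatement)
    (hU : EtaUnitStatement) {p : ℕ} [Fact p.Prime] (h3 : 3 ≤ p) :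
    ExtCitation.ExtVanishingCts p := by
  intro V _ _ _ _ C hadm
  have hp : p.Prime := Fact.out
  haveI : NeZero p := ⟨hp.ne_zero⟩
  haveI : NeZero ((p : ℕ) : ℚ) := ⟨by exact_mod_cast hp.ne_zero⟩
  haveI hcyc : IsCyclotomicExtension {p} ℚ (CyclotomicField p ℚ) :=
    CyclotomicField.isCyclotomicExtension p ℚ
  haveI : NumberField (CyclotomicField p ℚ) := IsCyclotomicExtension.numberField {p} ℚ _
  haveI : Algebra.IsAlgebraic ℚ (CyclotomicField p ℚ) := Algebra.IsAlgebraic.of_finite ℚ _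
  exact splitsGlobally_of_parts_aux hK hL hC hC3 hE hU h3 (CyclotomicField p ℚ)
    (IsAlgClosed.lift) (IsCyclotomicExtension.zeta p ℚ (CyclotomicField p ℚ))
    (IsCyclotomicExtension.zeta_spec p ℚ (CyclotomicField p ℚ)) V C hadm

end Fermat.Agent.H13
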