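import Fermat.Agent.H13.S14Interfaces
import Fermat.Agent.H89.S14LocalLemma
import Fermat.Agent.H49.S14.CycloLocal
import Fermat.Agent.H75.S14KummerDatum
import Fermat.Agent.H34.GaloisKummer
import Fermat.Agent.H5.S14.CycloExp
import Fermat.Agent.H73.S14Cocycle
import Fermat.Agent.H36.S14_Hilbert90
import Fermat.Agent.H39.S14TG45
import Fermat.Agent.H65.S14_Singular
import Fermat.Agent.H49.S14.PlaceOverPrime
import Fermat.Agent.H2.S14_Move
import Fermat.Agent.H87.S14_Span
import Fermat.Agent.H16.S14SumValuation
import Fermat.Agent.H53.S14T.Profinite

set_option autoImplicit false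

namespace Fermat.Agent.H13

/-- Block **T**, assembled: the Kummer datum of a non-split admissible extension. -/
theorem kummerDatumStatement_final : KummerDatumStatement :=
  H75.kummerDatum_of_parts
    (H34.galoisKummer H5.cycloExp_spec H73.cocycleStatement H36.hilbert90)
    H39.fixedFieldStatement H39.liftAutStatement
    (H65.singularStatement_of_parts H49.placeOverPrime H49.unitFraction
      (H2.moveStatement_of_parts H87.spanStatement H16.sumValuation H53.transitiveStatement)
      H16.sumValuation H87.spanStatement H53.inertiaCorrectionStatement H39.fixedFieldStatement)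

/-- Block **T-loc**, assembled: the local lemma at `p`. -/
theorem localLemmaStatement_final : LocalLemmaStatement :=
  H89.localLemma_of_parts H49.cycloLocal
    (H2.moveStatement_of_parts H87.spanStatement H16.sumValuation H53.transitiveStatement)
    H39.fixedFieldStatement

end Fermat.Agent.H13
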