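import Fermat.Agent.H13.S14Defs

set_option autoImplicit false

open scoped NumberField nonZeroDivisors

namespace Fermat.Agent.H13

/-! ## Interfaces of the S14 project (each is a `Prop`; sub-teams prove `theorem … : XStatement`). -/

/-- **C2** (finite abelian group algebra): a nontrivial `p`-torsion class in the `ω²`-eigenspace
yields a nontrivial character of type `ω²`. -/
def ClassCharStatement : Prop :=
  ∀ (p : ℕ) [Fact p.Prime] (K : Type) [Field K] [NumberField K] [IsCyclotomicExtension {p} ℚ K]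
    (ζ : K) (_ : IsPrimitiveRoot ζ p) (x : ClassGroup (𝓞 K)),
    x ≠ 1 → x ^ p = 1 →
    (∀ (σ : K ≃ₐ[ℚ] K) (k : ℕ), σ ζ = ζ ^ k → sigmaCl K σ x = x ^ (k ^ 2)) →
    ∃ φ : ClassGroup (𝓞 K) →* Multiplicative (ZMod p), φ ≠ 1 ∧ IsOmegaSqChar p ζ φ

/-- **C3** (Thaine's relation): if a character of type `ω²` is nontrivial on a degree-one prime
`P`, then the cyclotomic unit `η` is a `p`-th power modulo `P`. -/
def ThaineStatement : Prop :=
  ∀ (p : ℕ) [Fact p.Prime] (_ : 5 ≤ p) (K : Type) [Field K] [NumberField K]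
    [IsCyclotomicExtension {p} ℚ K] (ζ : K) (hζ : IsPrimitiveRoot ζ p)
    (φ : ClassGroup (𝓞 K) →* Multiplicative (ZMod p)), IsOmegaSqChar p ζ φ →
    ∀ P : (Ideal (𝓞 K))⁰, IsDegOnePrime p P → φ (ClassGroup.mk0 P) ≠ 1 →
      IsPthPowerMod p (etaInt p hζ) (P : Ideal (𝓞 K))

/-- **C4** (analytic Claim Z): for a nontrivial character `φ` of the class group and a unit `γ`
which is not a `p`-th power, some degree-one prime `P` has `φ P ≠ 1` and `γ` not a `p`-th power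
modulo `P`. -/
def ClaimZStatement : Prop :=
  ∀ (p : ℕ) [Fact p.Prime] (_ : 5 ≤ p) (K : Type) [Field K] [NumberField K]
    [IsCyclotomicExtension {p} ℚ K] (γ : 𝓞 K), IsUnit γ → (¬ ∃ x : 𝓞 K, x ^ p = γ) →
    ∀ φ : ClassGroup (𝓞 K) →* Multiplicative (ZMod p), φ ≠ 1 →
      ∃ P : (Ideal (𝓞 K))⁰, IsDegOnePrime p P ∧ φ (ClassGroup.mk0 P) ≠ 1 ∧
        ¬ IsPthPowerMod p γ (P : Ideal (𝓞 K))

/-- **C6** (units): a unit in the `ω²`-eigenspace modulo `p`-th powers is a power of `η` times a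
`p`-th power. -/
def UnitEigenStatement : Prop :=
  ∀ (p : ℕ) [Fact p.Prime] (_ : 5 ≤ p) (K : Type) [Field K] [NumberField K]
    [IsCyclotomicExtension {p} ℚ K] (ζ : K) (hζ : IsPrimitiveRoot ζ p) (u : (𝓞 K)ˣ),
    (∀ (σ : K ≃ₐ[ℚ] K) (k : ℕ), σ ζ = ζ ^ k →
        ∃ v : (𝓞 K)ˣ, sigmaO K σ (u : 𝓞 K) = (u : 𝓞 K) ^ (k ^ 2) * (v : 𝓞 K) ^ p) →
    ∃ (j : ℕ) (v : (𝓞 K)ˣ), (u : 𝓞 K) = etaInt p hζ ^ j * (v : 𝓞 K) ^ p

/-- **C7** (local computation): `η^j` (`p ∤ j`) is not congruent to a rational integer modulo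
`p`. -/
def EtaLocalStatement : Prop :=
  ∀ (p : ℕ) [Fact p.Prime] (_ : 5 ≤ p) (K : Type) [Field K] [NumberField K]
    [IsCyclotomicExtension {p} ℚ K] (ζ : K) (hζ : IsPrimitiveRoot ζ p) (j : ℕ), ¬ p ∣ j →
    ∀ c : ℤ, ¬ (((p : ℕ) : 𝓞 K) ∣ etaInt p hζ ^ j - (c : 𝓞 K))

/-- **C7'**: `η` is a unit. -/
def EtaUnitStatement : Prop :=
  ∀ (p : ℕ) [Fact p.Prime] (_ : 5 ≤ p) (K : Type) [Field K] [NumberField K]
    [IsCyclotomicExtension {p} ℚ K] (ζ : K) (hζ : IsPrimitiveRoot ζ p), IsUnit (etaInt p hζ)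

/-- **CORE** (`p ≥ 5`): a singular element of the `ω²`-eigenspace is `η^j` times a `p`-th power. -/
def CoreStatement : Prop :=
  ∀ (p : ℕ) [Fact p.Prime] (_ : 5 ≤ p) (K : Type) [Field K] [NumberField K]
    [IsCyclotomicExtension {p} ℚ K] (ζ : K) (hζ : IsPrimitiveRoot ζ p) (α : K), α ≠ 0 →
    IsSingular p α → IsOmegaSqElt p ζ α →
    ∃ (j : ℕ) (β : K), α = ((etaInt p hζ : 𝓞 K) : K) ^ j * β ^ p

/-- **CORE3** (`p = 3`): a singular element of the trivial eigenspace is a cube. -/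
def Core3Statement : Prop :=
  ∀ (K : Type) [Field K] [NumberField K] [IsCyclotomicExtension {3} ℚ K] (ζ : K)
    (_ : IsPrimitiveRoot ζ 3) (α : K), α ≠ 0 →
    IsSingular 3 α → IsOmegaSqElt 3 ζ α → ∃ β : K, α = β ^ 3

end Fermat.Agent.H13

namespace Fermat.Agent.H13

/-- `ℚ̄` with the instances used by the prelude. -/
abbrev Qbar : Type := AlgebraicClosure ℚ

/-- **T** (Galois/valuation side, main statement): a non-split admissible extension produces a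
Kummer generator `A₀` with `A₀^p = α ∈ K = ℚ(ζ_p)`, `α` not a `p`-th power, singular, in the
`ω²`-eigenspace, and `A₀` fixed by `D_A ∩ G_K` for every place `A` over `p`. -/
def KummerDatumStatement : Prop :=
  ∀ (p : ℕ) [Fact p.Prime] (_ : 3 ≤ p) (V : Type) [AddCommGroup V] [Module (ZMod p) V]
    [DistribMulAction (AlgebraicClosure ℚ ≃ₐ[ℚ] AlgebraicClosure ℚ) V]
    [SMulCommClass (AlgebraicClosure ℚ ≃ₐ[ℚ] AlgebraicClosure ℚ) (ZMod p) V]
    (C : Submodule (ZMod p) V), ExtCitation.IsAdmissibleExtensionCts p V C →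
    ¬ ExtCitation.SplitsGlobally C →
    ∀ (K : Type) [Field K] [NumberField K] [IsCyclotomicExtension {p} ℚ K]
      (ι : K →ₐ[ℚ] AlgebraicClosure ℚ) (ζ : K) (_ : IsPrimitiveRoot ζ p),
    ∃ (α : K) (A₀ : AlgebraicClosure ℚ), α ≠ 0 ∧ A₀ ^ p = ι α ∧ (¬ ∃ β : K, β ^ p = α) ∧
      IsSingular p α ∧ IsOmegaSqElt p ζ α ∧
      ∀ A : ValuationSubring (AlgebraicClosure ℚ), A.LiesOverPrime p →
        ∀ τ ∈ A.decompositionSubgroup ℚ, τ (ι ζ) = ι ζ → τ A₀ = A₀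

/-- **T-loc** (local lemma at `p`): if a unit `u` of `K` is not a `p`-th power but has a `p`-th
root in `ℚ̄` fixed by `D_A ∩ G_K` (`A` a place over `p`), then `u` is congruent to a rational
integer modulo `p` (indeed `u ≡ c^p` modulo `(ζ-1)^p`). -/
def LocalLemmaStatement : Prop :=
  ∀ (p : ℕ) [Fact p.Prime] (_ : 3 ≤ p) (K : Type) [Field K] [NumberField K]
    [IsCyclotomicExtension {p} ℚ K] (ι : K →ₐ[ℚ] AlgebraicClosure ℚ) (ζ : K)
    (_ : IsPrimitiveRoot ζ p) (u : 𝓞 K), IsUnit u → ∀ y : AlgebraicClosure ℚ,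
    y ^ p = ι (u : K) → (¬ ∃ x : K, x ^ p = (u : K)) →
    ∀ A : ValuationSubring (AlgebraicClosure ℚ), A.LiesOverPrime p →
      (∀ τ ∈ A.decompositionSubgroup ℚ, τ (ι ζ) = ι ζ → τ y = y) →
      ∃ c : ℤ, ((p : ℕ) : 𝓞 K) ∣ u - (c : 𝓞 K)

end Fermat.Agent.H13

namespace Fermat.Agent.H13

/-- **C4c** (critical analytic input): the `L`-series of a nontrivial character of the class
group is bounded on the real interval `(1, 2]`. -/
def ClassLBoundedStatement : Prop :=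
  ∀ (K : Type) [Field K] [NumberField K] (χ : ClassGroup (𝓞 K) →* ℂˣ), χ ≠ 1 →
    ∃ B : ℝ, ∀ s : ℝ, 1 < s → s ≤ 2 →
      ‖∑' I : (Ideal (𝓞 K))⁰, ((χ (ClassGroup.mk0 I) : ℂˣ) : ℂ) *
          (((Ideal.absNorm (I : Ideal (𝓞 K)) : ℝ) ^ (-s) : ℝ) : ℂ)‖ ≤ B

/-- **C1** (bridge): a singular element generates the `p`-th power of a fractional ideal. -/
def SingularIdealStatement : Prop :=
  ∀ (p : ℕ) [Fact p.Prime] (K : Type) [Field K] [NumberField K] (α : K), α ≠ 0 →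
    IsSingular p α →
    ∃ I : (FractionalIdeal (𝓞 K)⁰ K)ˣ,
      FractionalIdeal.spanSingleton (𝓞 K)⁰ α = ((I ^ p : (FractionalIdeal (𝓞 K)⁰ K)ˣ) :
        FractionalIdeal (𝓞 K)⁰ K)

end Fermat.Agent.H13

namespace Fermat.Agent.H13

/-- **C4c**, official form: the difference of the partial zeta functions of two ideal classes is
bounded on the real interval `(1, 2]`. -/
def ClassZetaBoundedStatement : Prop :=
  ∀ (K : Type) [Field K] [NumberField K] (C C' : ClassGroup (𝓞 K)),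
    ∃ B : ℝ, ∀ s : ℝ, 1 < s → s ≤ 2 →
      |(∑' I : {I : (Ideal (𝓞 K))⁰ // ClassGroup.mk0 I = C},
          ((Ideal.absNorm (I.1 : Ideal (𝓞 K)) : ℝ)) ^ (-s)) -
        (∑' I : {I : (Ideal (𝓞 K))⁰ // ClassGroup.mk0 I = C'},
          ((Ideal.absNorm (I.1 : Ideal (𝓞 K)) : ℝ)) ^ (-s))| ≤ B

end Fermat.Agent.H13
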