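import Fermat.Agent.H13.S14Interfaces

set_option autoImplicit false

open scoped NumberField nonZeroDivisors

namespace Fermat.Agent.H13

/-- **C3, F-side target** (Thaine datum): for a degree-one prime `P` of `K = ℚ(ζ_p)` over `ℓ`,
there are `N ∈ 𝓞 K` (the norm from `K(ζ_ℓ)` of a Hilbert-90 element `β` for the cyclotomic unit
`1 - ζ_p ζ_ℓ`), an integer `s` and exponents `r σ` such that `p ∣ v_Q(N)` for all primes `Q` which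
are not conjugates of `P`, `v_{σP}(N) = r σ`, and `1 - ζ ≡ s ^ (r σ)` modulo `σ P`. -/
def ThaineDatumStatement : Prop :=
  ∀ (p : ℕ) [Fact p.Prime] (_ : 5 ≤ p) (K : Type) [Field K] [NumberField K]
    [IsCyclotomicExtension {p} ℚ K] (ζ : K) (hζ : IsPrimitiveRoot ζ p)
    (P : (Ideal (𝓞 K))⁰), IsDegOnePrime p P →
    ∃ (N : 𝓞 K) (s : ℤ) (r : (K ≃ₐ[ℚ] K) → ℕ), N ≠ 0 ∧
      (∀ Q : Ideal (𝓞 K), Q.IsPrime → Q ≠ ⊥ →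
        (∀ σ : K ≃ₐ[ℚ] K, Q ≠ Ideal.map (sigmaO K σ) (P : Ideal (𝓞 K))) →
          ∃ n : ℕ, N ∈ Q ^ (p * n) ∧ N ∉ Q ^ (p * n + 1)) ∧
      (∀ σ : K ≃ₐ[ℚ] K, N ∈ (Ideal.map (sigmaO K σ) (P : Ideal (𝓞 K))) ^ (r σ) ∧
          N ∉ (Ideal.map (sigmaO K σ) (P : Ideal (𝓞 K))) ^ (r σ + 1)) ∧
      (∀ σ : K ≃ₐ[ℚ] K, (1 - hζ.toInteger) - (s : 𝓞 K) ^ (r σ) ∈
          Ideal.map (sigmaO K σ) (P : Ideal (𝓞 K)))

end Fermat.Agent.H13
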