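import Fermat.Agent.H13.S14Final
import Fermat.Agent.H13.S14Core
import Fermat.Agent.H13.S14TFinal
import Fermat.Agent.H90.S14EtaWrap
import Fermat.Agent.H90.S14EtaNotPow
import Fermat.Agent.H73.S14Core3
import Fermat.Agent.H16.S14SingularIdeal
import Fermat.Agent.H48.S14ClassChar
import Fermat.Agent.H62.ClaimZFinal
import Fermat.Agent.H87.S14_ThaineK
import Fermat.Agent.H76.ThaineGlue
import Fermat.Agent.H39.ThaineField
import Fermat.Agent.H16.S14ThaineRam
import Fermat.Agent.H47.ThaineC3c
import Fermat.Agent.H47.ThaineC3d
import Fermat.Agent.H34.PrimesOver
import Fermat.Agent.H88.ThaineRam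

set_option autoImplicit false

namespace Fermat.Agent.H13

/-- **C3** (Thaine's relation), assembled. -/
theorem thaineStatement_final : ThaineStatement :=
  H87.thaine_of_datum
    (H76.thaineDatum_of_parts H39.thaineFieldStatement H16.unramified
      H88.totallyRamifiedStatement H47.localCongruenceStatement H47.normValuationStatement
      H34.primesOver)

/-- **CORE** modulo the unit eigenspace statement **C6**. -/
theorem coreStatement_of_unitEigen (hU : UnitEigenStatement) : CoreStatement :=
  core_of_parts H16.singularIdeal H48.classChar thaineStatement_final H62.claimZ hU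
    H90.etaUnitStatement H90.etaNotPowStatement

/-- **S14** modulo the unit eigenspace statement **C6**. -/
theorem extVanishingCts_of_unitEigen (hU : UnitEigenStatement) {p : ℕ} [Fact p.Prime]
    (h3 : 3 ≤ p) : ExtCitation.ExtVanishingCts p :=
  extVanishingCts_of_parts kummerDatumStatement_final localLemmaStatement_final
    (coreStatement_of_unitEigen hU) H73.core3 H90.etaLocalStatement H90.etaUnitStatement h3

end Fermat.Agent.H13
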