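import Mathlib
import Fermat.Prelude.Def_ExtCitation_AdmissibleExtension_v2
import Fermat.Prelude.Def_ClassGroup_GaloisAction

set_option autoImplicit false

open scoped NumberField nonZeroDivisors

namespace Fermat.Agent.H13

section NF

variable (p : ℕ) (K : Type) [Field K] [NumberField K]

/-- The action of a Galois automorphism on the ring of integers. -/
noncomputable def sigmaO (σ : K ≃ₐ[ℚ] K) : 𝓞 K ≃+* 𝓞 K :=
  NumberField.RingOfIntegers.mapRingEquiv σ.toRingEquiv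

@[simp] theorem coe_sigmaO (σ : K ≃ₐ[ℚ] K) (x : 𝓞 K) : ((sigmaO K σ x : 𝓞 K) : K) = σ (x : K) := rfl

/-- The action of a Galois automorphism on the class group. -/
noncomputable def sigmaCl (σ : K ≃ₐ[ℚ] K) : ClassGroup (𝓞 K) ≃* ClassGroup (𝓞 K) :=
  ClassGroup.mulEquiv (sigmaO K σ)

theorem sigmaCl_mk0 (σ : K ≃ₐ[ℚ] K) (P : (Ideal (𝓞 K))⁰) :
    sigmaCl K σ (ClassGroup.mk0 P) = ClassGroup.mk0 (Ideal.mapNonZero (sigmaO K σ) P) :=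
  ClassGroup.mulEquiv_mk0 _ _

variable {K}

/-- `φ` is a character of the class group "of type `ω²`". -/
def IsOmegaSqChar (ζ : K) (φ : ClassGroup (𝓞 K) →* Multiplicative (ZMod p)) : Prop :=
  ∀ (σ : K ≃ₐ[ℚ] K) (k : ℕ), σ ζ = ζ ^ k → ∀ c, φ (sigmaCl K σ c) = φ c ^ (k ^ 2)

/-- nonzero prime ideal of residue degree one, not above `p`. -/
def IsDegOnePrime (P : (Ideal (𝓞 K))⁰) : Prop :=
  (P : Ideal (𝓞 K)).IsPrime ∧ (Ideal.absNorm (P : Ideal (𝓞 K))).Prime ∧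
    Ideal.absNorm (P : Ideal (𝓞 K)) ≠ p

/-- `γ` is a `p`-th power modulo the ideal `P`. -/
def IsPthPowerMod (γ : 𝓞 K) (P : Ideal (𝓞 K)) : Prop := ∃ x : 𝓞 K, γ - x ^ p ∈ P

/-- the `ω²`-component of the cyclotomic unit, as an algebraic integer:
`∏_{a=1}^{p-1} (1 + ζ + ⋯ + ζ^(a-1)) ^ (a^(p-3) mod p)`. -/
noncomputable def etaInt {ζ : K} (hζ : IsPrimitiveRoot ζ p) [NeZero p] : 𝓞 K :=
  ∏ a ∈ Finset.Ico 1 p, (∑ j ∈ Finset.range a, hζ.toInteger ^ j) ^ (a ^ (p - 3) % p)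

/-- `α` generates the `p`-th power of a fractional ideal (elementary formulation). -/
def IsSingular (α : K) : Prop :=
  ∀ P : Ideal (𝓞 K), P.IsPrime → P ≠ ⊥ →
    ∃ β : K, β ≠ 0 ∧ ∃ x y : 𝓞 K, x ∉ P ∧ y ∉ P ∧ α * β ^ p * (y : K) = (x : K)

/-- `α` lies in the `ω²`-eigenspace of `Kˣ/Kˣᵖ`. -/
def IsOmegaSqElt (ζ : K) (α : K) : Prop :=
  ∀ (σ : K ≃ₐ[ℚ] K) (k : ℕ), σ ζ = ζ ^ k → ∃ κ : K, σ α = α ^ (k ^ 2) * κ ^ p

end NF

end Fermat.Agent.H13
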