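import Fermat.Agent.H13.S14ThaineDefs

set_option autoImplicit false

open scoped NumberField nonZeroDivisors
open UniqueFactorizationMonoid

namespace Fermat.Agent.H13

section IdealChar

variable (p : ℕ) (K : Type) [Field K] [NumberField K]

/-- The additive character on ideals attached to a character of the class group. -/
noncomputable def idealChar (φ : ClassGroup (𝓞 K) →* Multiplicative (ZMod p))
    (J : Ideal (𝓞 K)) : ZMod p :=
  if h : J ≠ ⊥ then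
    Multiplicative.toAdd (φ (ClassGroup.mk0 ⟨J, mem_nonZeroDivisors_iff_ne_zero.mpr h⟩))
  else 0

variable {p K}

theorem idealChar_of_ne (φ : ClassGroup (𝓞 K) →* Multiplicative (ZMod p))
    (J : (Ideal (𝓞 K))⁰) :
    idealChar p K φ (J : Ideal (𝓞 K)) = Multiplicative.toAdd (φ (ClassGroup.mk0 J)) := by
  have h : (J : Ideal (𝓞 K)) ≠ ⊥ := mem_nonZeroDivisors_iff_ne_zero.mp J.2
  rw [idealChar, dif_pos h]

theorem idealChar_mul (φ : ClassGroup (𝓞 K) →* Multiplicative (ZMod p))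
    {J₁ J₂ : Ideal (𝓞 K)} (h1 : J₁ ≠ ⊥) (h2 : J₂ ≠ ⊥) :
    idealChar p K φ (J₁ * J₂) = idealChar p K φ J₁ + idealChar p K φ J₂ := by
  have e1 := idealChar_of_ne φ ⟨J₁, mem_nonZeroDivisors_iff_ne_zero.mpr h1⟩
  have e2 := idealChar_of_ne φ ⟨J₂, mem_nonZeroDivisors_iff_ne_zero.mpr h2⟩
  have e3 := idealChar_of_ne φ (⟨J₁, mem_nonZeroDivisors_iff_ne_zero.mpr h1⟩ *
    ⟨J₂, mem_nonZeroDivisors_iff_ne_zero.mpr h2⟩)
  simp only [Submonoid.coe_mul] at e1 e2 e3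
  rw [e1, e2, e3, map_mul, map_mul, toAdd_mul]

theorem idealChar_one (φ : ClassGroup (𝓞 K) →* Multiplicative (ZMod p)) :
    idealChar p K φ 1 = 0 := by
  have e := idealChar_of_ne φ (1 : (Ideal (𝓞 K))⁰)
  simp only [OneMemClass.coe_one] at e
  rw [e, map_one, map_one, toAdd_one]

theorem idealChar_span_singleton (φ : ClassGroup (𝓞 K) →* Multiplicative (ZMod p))
    {N : 𝓞 K} (hN : N ≠ 0) : idealChar p K φ (Ideal.span {N}) = 0 := by
  have hne : Ideal.span {N} ≠ (⊥ : Ideal (𝓞 K)) := by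
    rwa [Ne, Ideal.span_singleton_eq_bot]
  have e := idealChar_of_ne φ ⟨Ideal.span {N}, mem_nonZeroDivisors_iff_ne_zero.mpr hne⟩
  simp only at e
  rw [e]
  have : ClassGroup.mk0 ⟨Ideal.span {N}, mem_nonZeroDivisors_iff_ne_zero.mpr hne⟩ = 1 := by
    rw [ClassGroup.mk0_eq_one_iff]
    exact ⟨⟨N, rfl⟩⟩
  rw [this, map_one, toAdd_one]

theorem idealChar_multiset_prod (φ : ClassGroup (𝓞 K) →* Multiplicative (ZMod p))
    (S : Multiset (Ideal (𝓞 K))) (h : ∀ J ∈ S, J ≠ ⊥) :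
    idealChar p K φ S.prod = (S.map (idealChar p K φ)).sum := by
  induction S using Multiset.induction_on with
  | empty => simpa using idealChar_one φ
  | cons a S ih =>
    have ha : a ≠ ⊥ := h a (Multiset.mem_cons_self a S)
    have hS : ∀ J ∈ S, J ≠ ⊥ := fun J hJ => h J (Multiset.mem_cons_of_mem hJ)
    have hprod : S.prod ≠ ⊥ := by
      rw [← Ideal.zero_eq_bot]
      apply Multiset.prod_ne_zero
      intro h0
      exact hS 0 h0 rfl
    rw [Multiset.prod_cons, Multiset.map_cons, Multiset.sum_cons, idealChar_mul φ ha hprod,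
      ih hS]

open Classical in
/-- The basic relation: the weighted sum of `idealChar` over the prime factors of a principal
ideal vanishes. -/
theorem sum_count_smul_idealChar (φ : ClassGroup (𝓞 K) →* Multiplicative (ZMod p))
    {N : 𝓞 K} (hN : N ≠ 0) :
    ∑ Q ∈ (normalizedFactors (Ideal.span {N} : Ideal (𝓞 K))).toFinset,
      (normalizedFactors (Ideal.span {N} : Ideal (𝓞 K))).count Q • idealChar p K φ Q = 0 := by
  have hne : Ideal.span {N} ≠ (⊥ : Ideal (𝓞 K)) := by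
    rwa [Ne, Ideal.span_singleton_eq_bot]
  have h1 := idealChar_multiset_prod φ (normalizedFactors (Ideal.span {N} : Ideal (𝓞 K)))
    (fun J hJ => (prime_of_normalized_factor J hJ).ne_zero)
  rw [Ideal.prod_normalizedFactors_eq_self hne, idealChar_span_singleton φ hN] at h1
  rw [← Finset.sum_multiset_map_count]
  exact h1.symm

end IdealChar

section Conj

variable (K : Type) [Field K] [NumberField K]

/-- Modulo a prime of prime norm every algebraic integer is congruent to a rational integer. -/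
theorem exists_int_sub_mem_of_absNorm_prime (P : Ideal (𝓞 K)) (hP : (Ideal.absNorm P).Prime)
    (x : 𝓞 K) : ∃ n : ℤ, x - (n : 𝓞 K) ∈ P := by
  have hcard : Nat.card (𝓞 K ⧸ P) = Ideal.absNorm P := by
    rw [Ideal.absNorm_apply, Submodule.cardQuot_apply]
  haveI : Fact (Nat.card (𝓞 K ⧸ P)).Prime := ⟨by rw [hcard]; exact hP⟩
  have hne : (1 : 𝓞 K ⧸ P) ≠ 0 := by
    intro h
    have : (1 : 𝓞 K) ∈ P := by
      rw [← Ideal.Quotient.eq_zero_iff_mem]; exact h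
    have htop : P = ⊤ := (Ideal.eq_top_iff_one P).mpr this
    rw [htop] at hP
    simp at hP
    exact Nat.not_prime_one hP
  rcases (AddSubgroup.zmultiples (1 : 𝓞 K ⧸ P)).eq_bot_or_eq_top_of_prime_card with h | h
  · exfalso
    apply hne
    have : (1 : 𝓞 K ⧸ P) ∈ AddSubgroup.zmultiples (1 : 𝓞 K ⧸ P) :=
      AddSubgroup.mem_zmultiples _
    rw [h] at this
    simpa using this
  · have hx : (Ideal.Quotient.mk P x) ∈ AddSubgroup.zmultiples (1 : 𝓞 K ⧸ P) := by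
      rw [h]; trivial
    obtain ⟨n, hn⟩ := AddSubgroup.mem_zmultiples_iff.mp hx
    refine ⟨n, ?_⟩
    rw [← Ideal.Quotient.eq_zero_iff_mem, map_sub, ← hn]
    simp

end Conj

section SigmaMap

variable (K : Type) [Field K] [NumberField K]

theorem sigmaO_mul_apply (σ τ : K ≃ₐ[ℚ] K) (x : 𝓞 K) :
    sigmaO K (τ * σ) x = sigmaO K τ (sigmaO K σ x) := by
  apply NumberField.RingOfIntegers.coe_injective
  simp only [coe_sigmaO, AlgEquiv.mul_apply]

theorem sigmaO_one_apply (x : 𝓞 K) : sigmaO K 1 x = x := by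
  apply NumberField.RingOfIntegers.coe_injective
  simp only [coe_sigmaO, AlgEquiv.one_apply]

theorem map_sigmaO_mul (σ τ : K ≃ₐ[ℚ] K) (I : Ideal (𝓞 K)) :
    Ideal.map (sigmaO K (τ * σ)) I = Ideal.map (sigmaO K τ) (Ideal.map (sigmaO K σ) I) := by
  ext x
  simp only [Ideal.mem_map_of_equiv]
  constructor
  · rintro ⟨y, hy, rfl⟩
    exact ⟨sigmaO K σ y, ⟨y, hy, rfl⟩, (sigmaO_mul_apply K σ τ y).symm⟩
  · rintro ⟨z, ⟨y, hy, rfl⟩, rfl⟩
    exact ⟨y, hy, sigmaO_mul_apply K σ τ y⟩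

theorem map_sigmaO_one (I : Ideal (𝓞 K)) : Ideal.map (sigmaO K 1) I = I := by
  ext x
  simp only [Ideal.mem_map_of_equiv]
  constructor
  · rintro ⟨y, hy, rfl⟩
    rwa [sigmaO_one_apply]
  · intro hx
    exact ⟨x, hx, sigmaO_one_apply K x⟩

theorem mem_map_sigmaO_iff (σ : K ≃ₐ[ℚ] K) (I : Ideal (𝓞 K)) (x : 𝓞 K) :
    x ∈ Ideal.map (sigmaO K σ) I ↔ sigmaO K σ⁻¹ x ∈ I := by
  rw [Ideal.mem_map_of_equiv]
  constructor
  · rintro ⟨y, hy, rfl⟩
    rw [← sigmaO_mul_apply, inv_mul_cancel, sigmaO_one_apply]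
    exact hy
  · intro hx
    refine ⟨_, hx, ?_⟩
    rw [← sigmaO_mul_apply, mul_inv_cancel, sigmaO_one_apply]

end SigmaMap

section Cyclo

variable (p : ℕ) [Fact p.Prime] (K : Type) [Field K] [NumberField K]
  [IsCyclotomicExtension {p} ℚ K]

/-- An automorphism of `ℚ(ζ)` is determined by its value at `ζ`. -/
theorem sigma_eq_of_sigma_zeta_eq (ζ : K) (hζ : IsPrimitiveRoot ζ p) (σ τ : K ≃ₐ[ℚ] K)
    (h : σ ζ = τ ζ) : σ = τ := by
  have hp : p.Prime := Fact.out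
  haveI : NeZero p := ⟨hp.ne_zero⟩
  have hadj : Algebra.adjoin ℚ {ζ} = ⊤ :=
    IsCyclotomicExtension.adjoin_primitive_root_eq_top hζ
  have h2 : (σ : K →ₐ[ℚ] K) = (τ : K →ₐ[ℚ] K) := by
    refine AlgHom.ext_of_adjoin_eq_top hadj ?_
    intro a ha
    rw [Set.mem_singleton_iff] at ha
    subst ha
    simpa using h
  ext x
  exact congrArg (fun f : K →ₐ[ℚ] K => f x) h2

/-- If `σ ζ ≠ ζ` and `σ ζ ≡ ζ` modulo `P` then `p ∈ P`. -/
theorem natCast_mem_of_sigma_zeta_sub_mem (ζ : K) (hζ : IsPrimitiveRoot ζ p)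
    (P : Ideal (𝓞 K)) [hP : P.IsPrime] (σ : K ≃ₐ[ℚ] K) (hσ : σ ζ ≠ ζ)
    (hmem : sigmaO K σ hζ.toInteger - hζ.toInteger ∈ P) : ((p : ℕ) : 𝓞 K) ∈ P := by
  have hp : p.Prime := Fact.out
  haveI : NeZero p := ⟨hp.ne_zero⟩
  have hpow : (σ ζ) ^ p = 1 := by rw [← map_pow, hζ.pow_eq_one, map_one]
  obtain ⟨i, hi, hiζ⟩ := hζ.eq_pow_of_pow_eq_one hpow
  have hi0 : i ≠ 0 := by
    rintro rfl
    rw [pow_zero] at hiζ
    have : σ ζ = σ 1 := by rw [map_one, ← hiζ]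
    exact hζ.ne_one hp.one_lt (σ.injective this)
  have hi1 : i ≠ 1 := by
    rintro rfl
    rw [pow_one] at hiζ
    exact hσ hiζ.symm
  have hj : Nat.Coprime (i - 1) p := by
    rw [Nat.coprime_comm, hp.coprime_iff_not_dvd]
    intro hdvd
    have := Nat.le_of_dvd (by omega) hdvd
    omega
  have hμ : IsPrimitiveRoot (ζ ^ (i - 1)) p := hζ.pow_of_coprime _ hj
  have hdvd := hμ.toInteger_sub_one_dvd_prime'
  have hfac : sigmaO K σ hζ.toInteger - hζ.toInteger = hζ.toInteger * (hμ.toInteger - 1) := by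
    apply NumberField.RingOfIntegers.coe_injective
    change σ ζ - ζ = ζ * (ζ ^ (i - 1) - 1)
    rw [← hiζ, mul_sub, mul_one, ← pow_succ']
    congr 2
    omega
  rw [hfac] at hmem
  have hunit : IsUnit hζ.toInteger := hζ.toInteger_isPrimitiveRoot.isUnit hp.ne_zero
  have h1 : hμ.toInteger - 1 ∈ P := by
    rcases hP.mem_or_mem hmem with h | h
    · exact absurd (Ideal.eq_top_of_isUnit_mem _ h hunit) hP.ne_top
    · exact h
  exact Ideal.mem_of_dvd P hdvd h1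

/-- The stabiliser of a degree-one prime (not above `p`) is trivial. -/
theorem sigma_eq_one_of_map_eq (ζ : K) (hζ : IsPrimitiveRoot ζ p) (P : (Ideal (𝓞 K))⁰)
    (hP : IsDegOnePrime p P) (σ : K ≃ₐ[ℚ] K)
    (h : Ideal.map (sigmaO K σ) (P : Ideal (𝓞 K)) = (P : Ideal (𝓞 K))) : σ = 1 := by
  have hp : p.Prime := Fact.out
  obtain ⟨hprime, hℓ, hne⟩ := hP
  by_contra hσ
  have hσζ : σ ζ ≠ ζ := fun h' => hσ (sigma_eq_of_sigma_zeta_eq p K ζ hζ σ 1 (by simpa using h'))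
  obtain ⟨n, hn⟩ := exists_int_sub_mem_of_absNorm_prime K (P : Ideal (𝓞 K)) hℓ hζ.toInteger
  have h1 : sigmaO K σ (hζ.toInteger - (n : 𝓞 K)) ∈ (P : Ideal (𝓞 K)) := by
    rw [← h]
    exact Ideal.mem_map_of_mem _ hn
  rw [map_sub, map_intCast] at h1
  have h2 : sigmaO K σ hζ.toInteger - hζ.toInteger ∈ (P : Ideal (𝓞 K)) := by
    have := Ideal.sub_mem _ h1 hn
    simpa using this
  have hpP := natCast_mem_of_sigma_zeta_sub_mem p K ζ hζ (P : Ideal (𝓞 K)) σ hσζ h2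
  have hℓP : ((Ideal.absNorm (P : Ideal (𝓞 K)) : ℕ) : 𝓞 K) ∈ (P : Ideal (𝓞 K)) :=
    Ideal.absNorm_mem _
  have hcop : IsCoprime ((p : ℕ) : ℤ) ((Ideal.absNorm (P : Ideal (𝓞 K)) : ℕ) : ℤ) := by
    rw [Nat.isCoprime_iff_coprime]
    exact (Nat.coprime_primes hp hℓ).mpr (Ne.symm hne)
  obtain ⟨a, b, hab⟩ := hcop
  have h3 : (1 : 𝓞 K) ∈ (P : Ideal (𝓞 K)) := by
    have h4 : ((a * ((p : ℕ) : ℤ) + b * ((Ideal.absNorm (P : Ideal (𝓞 K)) : ℕ) : ℤ) : ℤ) : 𝓞 K)
        = 1 := by rw [hab]; simp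
    rw [← h4]
    push_cast
    exact Ideal.add_mem _ (Ideal.mul_mem_left _ _ hpP) (Ideal.mul_mem_left _ _ hℓP)
  exact hprime.ne_top ((Ideal.eq_top_iff_one _).mpr h3)

/-- `σ ↦ σ P` is injective for a degree-one prime `P` not above `p`. -/
theorem map_sigma_injective (ζ : K) (hζ : IsPrimitiveRoot ζ p) (P : (Ideal (𝓞 K))⁰)
    (hP : IsDegOnePrime p P) :
    Function.Injective (fun σ : K ≃ₐ[ℚ] K => Ideal.map (sigmaO K σ) (P : Ideal (𝓞 K))) := by
  intro σ τ h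
  simp only at h
  have h1 : Ideal.map (sigmaO K (τ⁻¹ * σ)) (P : Ideal (𝓞 K)) = (P : Ideal (𝓞 K)) := by
    rw [map_sigmaO_mul, h, ← map_sigmaO_mul, inv_mul_cancel, map_sigmaO_one]
  have := sigma_eq_one_of_map_eq p K ζ hζ P hP (τ⁻¹ * σ) h1
  have h2 : τ * (τ⁻¹ * σ) = τ * 1 := by rw [this]
  simpa using h2

end Cyclo

end Fermat.Agent.H13
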