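import Fermat.Agent.H13.S14Thaine

set_option autoImplicit false

open scoped NumberField nonZeroDivisors

namespace Fermat.Agent.H13

/-- **C3-K1** (class relation): from the valuations of `N` and a character of type `ω²` which is
nontrivial on `P`, the relation `∑_σ r_σ k_σ² = 0` in `ZMod p`. -/
def ThaineSumStatement : Prop :=
  ∀ (p : ℕ) [Fact p.Prime] (K : Type) [Field K] [NumberField K]
    [IsCyclotomicExtension {p} ℚ K] (ζ : K) (_ : IsPrimitiveRoot ζ p)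
    (φ : ClassGroup (𝓞 K) →* Multiplicative (ZMod p)), IsOmegaSqChar p ζ φ →
    ∀ P : (Ideal (𝓞 K))⁰, IsDegOnePrime p P → φ (ClassGroup.mk0 P) ≠ 1 →
    ∀ (N : 𝓞 K) (r k : (K ≃ₐ[ℚ] K) → ℕ), N ≠ 0 →
      (∀ σ : K ≃ₐ[ℚ] K, σ ζ = ζ ^ (k σ)) →
      (∀ Q : Ideal (𝓞 K), Q.IsPrime → Q ≠ ⊥ →
        (∀ σ : K ≃ₐ[ℚ] K, Q ≠ Ideal.map (sigmaO K σ) (P : Ideal (𝓞 K))) →
          ∃ n : ℕ, N ∈ Q ^ (p * n) ∧ N ∉ Q ^ (p * n + 1)) →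
      (∀ σ : K ≃ₐ[ℚ] K, N ∈ (Ideal.map (sigmaO K σ) (P : Ideal (𝓞 K))) ^ (r σ) ∧
          N ∉ (Ideal.map (sigmaO K σ) (P : Ideal (𝓞 K))) ^ (r σ + 1)) →
      ∑ σ : K ≃ₐ[ℚ] K, ((r σ : ℕ) : ZMod p) * ((k σ : ℕ) : ZMod p) ^ 2 = 0

/-- **C3-K2** (final congruence): from `1 - ζ ≡ s ^ (r σ)` modulo `σ P` and
`∑_σ r_σ k_σ² = 0` in `ZMod p`, the unit `η` is a `p`-th power modulo `P`. -/
def ThaineCongrStatement : Prop :=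
  ∀ (p : ℕ) [Fact p.Prime] (_ : 5 ≤ p) (K : Type) [Field K] [NumberField K]
    [IsCyclotomicExtension {p} ℚ K] (ζ : K) (hζ : IsPrimitiveRoot ζ p)
    (P : (Ideal (𝓞 K))⁰), IsDegOnePrime p P →
    ∀ (s : ℤ) (r k : (K ≃ₐ[ℚ] K) → ℕ),
      (∀ σ : K ≃ₐ[ℚ] K, σ ζ = ζ ^ (k σ)) →
      (∀ σ : K ≃ₐ[ℚ] K, (1 - hζ.toInteger) - (s : 𝓞 K) ^ (r σ) ∈
          Ideal.map (sigmaO K σ) (P : Ideal (𝓞 K))) →
      ∑ σ : K ≃ₐ[ℚ] K, ((r σ : ℕ) : ZMod p) * ((k σ : ℕ) : ZMod p) ^ 2 = 0 →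
      IsPthPowerMod p (etaInt p hζ) (P : Ideal (𝓞 K))

/-- **C3, K-side**: Thaine's statement from the Thaine datum. -/
theorem thaine_of_datum (hK1 : ThaineSumStatement) (hK2 : ThaineCongrStatement)
    (hD : ThaineDatumStatement) : ThaineStatement := by
  intro p _ h5 K _ _ _ ζ hζ φ hφ P hP hφP
  have hp : p.Prime := Fact.out
  haveI : NeZero p := ⟨hp.ne_zero⟩
  obtain ⟨N, s, r, hN, h1, h2, h3⟩ := hD p h5 K ζ hζ P hP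
  let k : (K ≃ₐ[ℚ] K) → ℕ := fun σ => ((hζ.autToPow ℚ σ : (ZMod p)ˣ) : ZMod p).val
  have hk : ∀ σ : K ≃ₐ[ℚ] K, σ ζ = ζ ^ (k σ) := fun σ => (hζ.autToPow_spec ℚ σ).symm
  exact hK2 p h5 K ζ hζ P hP s r k hk h3 (hK1 p K ζ hζ φ hφ P hP hφP N r k hN hk h1 h2)

end Fermat.Agent.H13
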